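import Fermat.Agent.S19.L.Push
import Fermat.Agent.S32.Defs
import Fermat.Agent.S32.Closure
import Fermat.Agent.S32.Quot
import Fermat.Agent.FFDiv.Main
import Fermat.Agent.S27.H.Main

/-!
# S19 / L-2 : level change.  (REP) for `J₀(N r)[ℓ^∞]` implies (REP) for `J₀(N)[ℓ^∞]`

`J₀(N)[ℓ^k]` is the image under `π_*` of the Galois stable subgroup
`{z ∈ J₀(N r)[ℓ^(k+a)] | ℓ^k π_* z = 0}`, because `π_* π^* = deg π = ℓ^a d'` and `J₀(N)` is divisible.
-/

set_option autoImplicit false
set_option linter.style.haveILetI false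

open ModularCurve AlgebraicCurve

noncomputable section

namespace Fermat.Agent.S19.L

open Fermat.Agent.S24 Fermat.Agent.GAL.FF Fermat.Agent.S24.FF Fermat.Agent.S37
open Fermat.Agent.GR.HeckeField (alp)
open Fermat.Agent.S32 (torAct RepContract)

/-- `J₀(M)[n]` is finite. -/
theorem finite_torsionBy (M : ℕ) [NeZero M] (n : ℕ) (hn : 0 < n) (m : ℤ) (hm : m = n) :
    Finite (Submodule.torsionBy ℤ (JZero M) m) := by
  subst hm
  have hcard : Nat.card (Pic0.torsion Kb (FN M) n) = n ^ (2 * genusFF Kb (FN M)) :=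
    Fermat.Agent.S27.card_torsion_of_complex
      (fun Fc _ _ _ n hn => Fermat.Agent.S27.card_torsion_complex Fc n hn) Kb (FN M) n hn
  exact Nat.finite_of_card_ne_zero (α := Pic0.torsion Kb (FN M) n)
    (by rw [hcard]; exact (pow_pos hn _).ne')

/-- abstract form of the level change: a sub-quotient. -/
theorem hasRep_of_push {ℓ : ℕ} (hℓ : ℓ.Prime) {A : ValuationSubring Qb} (hA : A.LiesOverPrime ℓ)
    {J J' : Type} [AddCommGroup J] [AddCommGroup J'] (n n' : ℤ)
    (act : GQ → Submodule.torsionBy ℤ J n → Submodule.torsionBy ℤ J n)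
    (act' : GQ → Submodule.torsionBy ℤ J' n' → Submodule.torsionBy ℤ J' n')
    [Finite (Submodule.torsionBy ℤ J' n')] (push : J' →+ J)
    (hpush : ∀ σ (z : Submodule.torsionBy ℤ J' n') (x : Submodule.torsionBy ℤ J n),
      push z.1 = x.1 → push (act' σ z).1 = (act σ x).1)
    (hsurj : ∀ x : Submodule.torsionBy ℤ J n, ∃ z : Submodule.torsionBy ℤ J' n', push z.1 = x.1)
    (h : HasRep A (Submodule.torsionBy ℤ J' n') act') :
    HasRep A (Submodule.torsionBy ℤ J n) act := by
  let g : Submodule.torsionBy ℤ J' n' →+ J :=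
    push.comp (Submodule.subtype _).toAddMonoidHom
  let E : AddSubgroup (Submodule.torsionBy ℤ J' n') :=
    (Submodule.torsionBy ℤ J n).toAddSubgroup.comap g
  have hmem : ∀ z, z ∈ E ↔ push z.1 ∈ Submodule.torsionBy ℤ J n := fun z => Iff.rfl
  have hEst : ∀ σ z, z ∈ E → act' σ z ∈ E := by
    intro σ z hz
    rw [hmem] at hz ⊢
    rw [hpush σ z ⟨_, hz⟩ rfl]
    exact (act σ _).2
  let actE : GQ → E → E := fun σ z => ⟨act' σ z.1, hEst σ z.1 z.2⟩
  have hE : HasRep A E actE := h.of_injective E.subtype Subtype.val_injective (fun σ x => rfl)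
  let f : E →+ Submodule.torsionBy ℤ J n :=
    { toFun := fun z => ⟨push z.1.1, (hmem z.1).1 z.2⟩
      map_zero' := Subtype.ext (map_zero push)
      map_add' := fun z z' => Subtype.ext (map_add push z.1.1 z'.1.1) }
  refine hE.of_surjective hℓ hA f ?_ ?_
  · intro x
    obtain ⟨z, hz⟩ := hsurj x
    exact ⟨⟨z, (hmem z).2 (hz ▸ x.2)⟩, Subtype.ext hz⟩
  · intro σ z
    exact Subtype.ext (hpush σ z.1 (f z) rfl)

variable (N r : ℕ) [NeZero N] [NeZero r]

theorem gal_smul_alp (σ : S37.GQ) (f : FN N) :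
    gal (N * r) σ • alp N r f = alp N r (gal N σ • f) := by
  apply Subtype.ext
  rw [coe_arithmeticGalois_smul, coe_heckeAlphaBar, coe_heckeAlphaBar, coe_arithmeticGalois_smul]

/-- `π_* : J₀(N r) → J₀(N)`. -/
def piPush : JZero (N * r) →+ JZero N := pushPic (alp N r)

/-- `π^* : J₀(N) → J₀(N r)`. -/
def piPull : JZero N →+ JZero (N * r) := pullPic (alp N r)

theorem piPush_smul (σ : S37.GQ) (x : JZero (N * r)) : piPush N r (σ • x) = σ • piPush N r x := by
  rw [galois_smul_pic0_def, galois_smul_pic0_def]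
  exact pushPic_smul (alp N r) (gal N σ) (gal (N * r) σ) (gal_smul_alp N r σ) x

theorem piPull_smul (σ : S37.GQ) (x : JZero N) : piPull N r (σ • x) = σ • piPull N r x := by
  rw [galois_smul_pic0_def, galois_smul_pic0_def]
  exact Pull_pullPic_smul (alp N r) (gal N σ) (gal (N * r) σ) (gal_smul_alp N r σ) x

theorem piPush_piPull (x : JZero N) :
    piPush N r (piPull N r x) = finrankAlong Kb (alp N r) • x :=
  pushPic_pullPic (alp N r) x

/-- **level change.** -/
theorem repContract_of_mul {ℓ : ℕ} (hℓ : ℓ.Prime) (h : RepContract (N * r) ℓ) :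
    RepContract N ℓ := by
  intro A hA k
  obtain ⟨a, d', hd', hd⟩ := Nat.exists_eq_pow_mul_and_not_dvd
    (finrankAlong_pos (alp N r)).ne' ℓ hℓ.ne_one
  have hM := h A hA (k + a)
  haveI : Finite (Submodule.torsionBy ℤ (JZero (N * r)) ((ℓ : ℤ) ^ (k + a))) :=
    finite_torsionBy (N * r) (ℓ ^ (k + a)) (pow_pos hℓ.pos _) _ (by push_cast; rfl)
  refine hasRep_of_push hℓ hA _ _ _ _ (piPush N r) ?_ ?_ hM
  · intro σ z x hzx
    rw [Fermat.Agent.S32.coe_torAct, Fermat.Agent.S32.coe_torAct, ← hzx]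
    exact piPush_smul N r σ z.1
  · intro x
    have hx : ((ℓ : ℤ) ^ k) • (x : JZero N) = 0 := (Submodule.mem_torsionBy_iff _ _).1 x.2
    obtain ⟨y, hy⟩ := Fermat.Agent.FFDiv.pic0_divisible Kb (FN N) (ℓ ^ a) (pow_pos hℓ.pos _)
      (x : JZero N)
    have hy' : ((ℓ : ℤ) ^ a) • y = (x : JZero N) := by
      rw [← hy, ← natCast_zsmul]
      push_cast
      rfl
    have hcop : IsCoprime (d' : ℤ) ((ℓ : ℤ) ^ k) := by
      apply IsCoprime.pow_right
      rw [isCoprime_comm, (Nat.prime_iff_prime_int.mp hℓ).coprime_iff_not_dvd]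
      exact fun hh => hd' (Int.natCast_dvd_natCast.mp hh)
    obtain ⟨u, w, huw⟩ := hcop
    have hz : piPull N r (u • y) ∈
        Submodule.torsionBy ℤ (JZero (N * r)) ((ℓ : ℤ) ^ (k + a)) := by
      rw [Submodule.mem_torsionBy_iff, ← map_zsmul, smul_smul]
      have : (ℓ : ℤ) ^ (k + a) * u = u * (ℓ : ℤ) ^ k * (ℓ : ℤ) ^ a := by ring
      rw [this, mul_smul, hy', mul_smul, hx, smul_zero, map_zero]
    have hgz : piPush N r (piPull N r (u • y)) = (x : JZero N) := by
      rw [piPush_piPull, hd, ← natCast_zsmul, smul_smul]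
      have : ((ℓ ^ a * d' : ℕ) : ℤ) * u = (1 - w * (ℓ : ℤ) ^ k) * (ℓ : ℤ) ^ a := by
        rw [← huw]
        push_cast
        ring
      rw [this, mul_smul, hy', sub_smul, one_smul, mul_smul, hx, smul_zero, sub_zero]
    exact ⟨⟨_, hz⟩, hgz⟩

end Fermat.Agent.S19.L
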