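import Fermat.Agent.S37.Pull

/-!
# S19 / L-1 : push-forward of divisor classes along `φ : F →ₐ[K] F'`, `φ_* φ^* = deg φ`,
Galois equivariance
-/

set_option autoImplicit false

open ModularCurve AlgebraicCurve

noncomputable section

namespace Fermat.Agent.S19.L

open Fermat.Agent.S24 Fermat.Agent.GAL.FF Fermat.Agent.S24.FF Fermat.Agent.S37
open Fermat.Agent.S27 (val cls)

section generic

variable {K F F' : Type*} [Field K] [Field F] [Field F'] [Algebra K F] [Algebra K F']
  [IsAlgClosed K] [IsFF1 K F] [IsFF1 K F']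

/-- push-forward of divisors along `φ`. -/
def pushDiv (φ : F →ₐ[K] F') : Divisor K F' →+ Divisor K F :=
  Divisor.pushforwardAlong φ (isIntegral_toRingHom φ)

/-- push-forward of divisor classes of degree `0` along `φ`. -/
def pushPic (φ : F →ₐ[K] F') : Pic0 K F' →+ Pic0 K F :=
  QuotientAddGroup.map _ _
    (((pushDiv φ).domRestrict (Divisor.degZero (K := K) (F := F'))).codRestrict
      (Divisor.degZero (K := K) (F := F))
      (fun D => Divisor.pushforwardAlong_mem_degZero φ (isIntegral_toRingHom φ) D.2))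
    (by
      rintro ⟨D, hD0⟩ hD
      simp only [AddSubgroup.mem_addSubgroupOf] at hD ⊢
      exact Divisor.isPrincipal_pushforwardAlong φ (isIntegral_toRingHom φ) (finiteAlong φ)
        (normFormulaAlong φ _) hD)

theorem pushDiv_apply (φ : F →ₐ[K] F') (E : Divisor K F') (v : Place K F) :
    pushDiv φ E v = ∑ w ∈ Place.fiberAlong φ (isIntegral_toRingHom φ) v, E w :=
  pushforwardAlong_apply φ _ E v

theorem degree_pushDiv (φ : F →ₐ[K] F') (E : Divisor K F') :
    Divisor.degree (pushDiv φ E) = Divisor.degree E :=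
  Divisor.degree_pushforwardAlong φ _ E

theorem pushPic_cls (φ : F →ₐ[K] F') {E : Divisor K F'} (hE : Divisor.degree E = 0) :
    pushPic φ (cls E) = cls (pushDiv φ E) := by
  rw [Fermat.Agent.S27.cls_of_degree hE,
    Fermat.Agent.S27.cls_of_degree ((degree_pushDiv φ E).trans hE)]
  rfl

theorem pushDiv_pullDiv (φ : F →ₐ[K] F') (D : Divisor K F) :
    pushDiv φ (pullDiv φ D) = finrankAlong K φ • D :=
  pushforwardAlong_pullbackAlong φ _ D

theorem pushPic_pullPic (φ : F →ₐ[K] F') (x : Pic0 K F) :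
    pushPic φ (pullPic φ x) = finrankAlong K φ • x := by
  obtain ⟨D, hD, rfl⟩ := Fermat.Agent.S27.cls_surjective x
  rw [pullPic_cls φ hD, pushPic_cls φ (degree_pullDiv φ hD), pushDiv_pullDiv]
  have h1 : Divisor.degree (finrankAlong K φ • D) = 0 := by rw [map_nsmul, hD, smul_zero]
  rw [Fermat.Agent.S27.cls_of_degree hD, Fermat.Agent.S27.cls_of_degree h1]
  rfl

theorem finrankAlong_pos (φ : F →ₐ[K] F') : 0 < finrankAlong K φ := by
  letI := algebraAlong φ
  haveI := isScalarTower_along φ
  haveI : Module.Finite F F' := finite_of_isFF1 K F F'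
  exact Module.finrank_pos (R := F) (M := F')

theorem pushDiv_smul (φ : F →ₐ[K] F') (g : SemilinearAut K F)
    (g' : SemilinearAut K F') (h : ∀ x : F, g' • φ x = φ (g • x)) (E : Divisor K F') :
    pushDiv φ (g' • E) = g • pushDiv φ E := by
  have hinv : ∀ x : F, g'⁻¹ • φ x = φ (g⁻¹ • x) := by
    intro x
    have hx := h (g⁻¹ • x)
    rw [smul_inv_smul] at hx
    rw [← hx, inv_smul_smul]
  ext v
  rw [pushDiv_apply, SemilinearAut.divisor_smul_apply, pushDiv_apply]
  refine Finset.sum_nbij' (fun w => g'⁻¹ • w) (fun w => g' • w) ?_ ?_ ?_ ?_ ?_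
  · intro w hw
    rw [Place.mem_fiberAlong] at hw ⊢
    rw [Pull_restrictAlong_smul φ g⁻¹ g'⁻¹ hinv w, hw]
  · intro w hw
    rw [Place.mem_fiberAlong] at hw ⊢
    rw [Pull_restrictAlong_smul φ g g' h w, hw, smul_inv_smul]
  · intro w _
    exact smul_inv_smul _ _
  · intro w _
    exact inv_smul_smul _ _
  · intro w _
    rw [SemilinearAut.divisor_smul_apply]

theorem pushPic_smul (φ : F →ₐ[K] F') (g : SemilinearAut K F)
    (g' : SemilinearAut K F') (h : ∀ x : F, g' • φ x = φ (g • x)) (x : Pic0 K F') :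
    pushPic φ (g' • x) = g • pushPic φ x := by
  obtain ⟨E, hE, rfl⟩ := Fermat.Agent.S27.cls_surjective x
  have hE' : Divisor.degree (g' • E) = 0 := by rw [SemilinearAut.degree_smul, hE]
  rw [Pull_smul_cls g' hE, pushPic_cls φ hE', pushPic_cls φ hE,
    Pull_smul_cls g ((degree_pushDiv φ E).trans hE), pushDiv_smul φ g g' h]

end generic

end Fermat.Agent.S19.L
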